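import Mathlib
import Fermat.Agent.S17.Cube.Defs
import Fermat.Agent.S17.Frame.CB

/-!
# S17, abstract (M): `H(f W) = H(W) + k h(f) + O(1)` (adjugate proof)
-/

set_option autoImplicit false

namespace Fermat.Agent.S17Lib

open Matrix MvPolynomial Height

section Hom

variable {σ R : Type*} [CommRing R]

theorem MA_isHomogeneous_det {k d : ℕ} (T : Matrix (Fin k) (Fin k) (MvPolynomial σ R))
    (hT : ∀ i j, (T i j).IsHomogeneous d) : T.det.IsHomogeneous (k * d) := by
  rw [Matrix.det_apply]
  refine IsHomogeneous.sum _ _ _ fun τ _ => ?_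
  have h : (∏ i, T (τ i) i).IsHomogeneous (∑ _i : Fin k, d) :=
    IsHomogeneous.prod _ _ _ fun i _ => hT _ _
  simp only [Finset.sum_const, Finset.card_univ, Fintype.card_fin, smul_eq_mul] at h
  rcases Int.units_eq_one_or (Equiv.Perm.sign τ) with h1 | h1 <;> rw [h1]
  · simpa using h
  · simpa using h.neg

theorem MA_hc_mul {d : ℕ} (q p : MvPolynomial σ R) (hq : q.IsHomogeneous d) (L : ℕ) :
    homogeneousComponent (L + d) (q * p) = q * homogeneousComponent L p := by
  classical
  conv_lhs => rw [← sum_homogeneousComponent p, Finset.mul_sum, map_sum]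
  have h : ∀ i, homogeneousComponent (L + d) (q * homogeneousComponent i p) =
      if i = L then q * homogeneousComponent L p else 0 := by
    intro i
    have h1 : (q * homogeneousComponent i p).IsHomogeneous (d + i) :=
      hq.mul (homogeneousComponent_isHomogeneous i p)
    rw [homogeneousComponent_of_mem h1]
    by_cases hi : i = L
    · subst hi
      simp [add_comm]
    · rw [if_neg hi, if_neg (by omega)]
  simp only [h]
  rw [Finset.sum_ite_eq']
  split_ifs with hL
  · rfl
  · rw [homogeneousComponent_eq_zero, mul_zero]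
    simpa using hL

end Hom

section UB

variable {K : Type*} [Field K] [CharZero K] [AdmissibleAbsValues K]
variable {σ m n : Type*} [Finite σ] [Fintype m] [Finite n]

theorem MA_upper (k d : ℕ) (T : Matrix m n (MvPolynomial σ K))
    (hT : ∀ i j, (T i j).IsHomogeneous d) :
    ∃ C : ℝ, ∀ (f : σ → K) (B : Matrix (Fin k) m K),
      logHeight (cbPlu (B * T.map (eval f))) ≤
        C + (k * d : ℕ) * logHeight f + logHeight (cbPlu B) := by
  classical
  obtain ⟨C, hC⟩ := logHeight_eval_le' (K := K)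
    (p := fun JI : (Fin k → n) × (Fin k → m) => (T.submatrix JI.2 JI.1).det) (N := k * d)
    (fun JI => MA_isHomogeneous_det _ fun i j => hT _ _)
  refine ⟨totalWeight K * Real.log (Nat.card (Fin k → m)) + C, fun f B => ?_⟩
  have hk : (k.factorial : K) ≠ 0 := by exact_mod_cast k.factorial_ne_zero
  have h1 : (k.factorial : K) • cbPlu (B * T.map (eval f)) =
      fun J => ∑ I, (eval f (T.submatrix I J).det) * cbPlu B I := by
    funext J
    rw [Pi.smul_apply, smul_eq_mul, CB_plu_mul_right]
    refine Finset.sum_congr rfl fun I _ => ?_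
    rw [mul_comm]
    congr 1
    rw [RingHom.map_det]
    rfl
  rw [← logHeight_smul_eq_logHeight _ hk, h1]
  have h2 := logHeight_linearMap_apply_le
    (fun JI : (Fin k → n) × (Fin k → m) => eval f (T.submatrix JI.2 JI.1).det) (cbPlu B)
  have h3 := hC f
  linarith

omit [Finite n] in
theorem MA_lower [DecidableEq m] [Fintype n] (k L : ℕ) (M : Matrix m n (MvPolynomial σ K))
    (R : σ → Matrix n m (MvPolynomial σ K)) (hR : ∀ s i j, (R s i j).IsHomogeneous L)
    (hMR : ∀ s, M * R s = (X s : MvPolynomial σ K) ^ (L + 1) • (1 : Matrix m m _)) :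
    ∃ C : ℝ, ∀ f : σ → K, f ≠ 0 → ∀ B : Matrix (Fin k) m K, cbPlu B ≠ 0 →
      k * logHeight f + logHeight (cbPlu B) ≤ C + logHeight (cbPlu (B * M.map (eval f))) := by
  classical
  obtain ⟨C, hC⟩ := MA_upper (K := K) k L
    (Matrix.of fun (j : n) (sm : σ × m) => R sm.1 j sm.2) (fun i j => hR _ _ _)
  refine ⟨C, fun f hf B hB => ?_⟩
  have h1 := hC f (B * M.map (eval f))
  set Rb : Matrix n (σ × m) (MvPolynomial σ K) := Matrix.of fun (j : n) (sm : σ × m) => R sm.1 j sm.2
  -- the product
  have h2 : ∀ (i : Fin k) (sm : σ × m),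
      (B * M.map (eval f) * Rb.map (eval f)) i sm = f sm.1 ^ (L + 1) * B i sm.2 := by
    intro i sm
    have e1 : ∀ t, (M.map (eval f) * Rb.map (eval f)) t sm =
        eval f ((M * R sm.1) t sm.2) := by
      intro t
      simp [Matrix.mul_apply, Rb, map_sum]
    rw [Matrix.mul_assoc, Matrix.mul_apply]
    simp only [e1, hMR, Matrix.smul_apply, smul_eq_mul, map_mul, map_pow, eval_X,
      Matrix.one_apply]
    rw [Finset.sum_eq_single sm.2]
    · simp [mul_comm]
    · intro b _ hb
      simp [hb]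
    · simp
  have h3 : (fun a : σ × (Fin k → m) => (f ^ ((L + 1) * k)) a.1 * cbPlu B a.2) =
      cbPlu (B * M.map (eval f) * Rb.map (eval f)) ∘
        (fun a : σ × (Fin k → m) => fun t => (a.1, a.2 t)) := by
    funext a
    have e2 : (B * M.map (eval f) * Rb.map (eval f)).submatrix id (fun t => (a.1, a.2 t)) =
        f a.1 ^ (L + 1) • B.submatrix id a.2 := by
      ext i t
      simp [h2]
    rw [Function.comp_apply, CB_plu_apply, CB_plu_apply, e2, Matrix.det_smul, Fintype.card_fin,
      ← pow_mul]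
    rfl
  have h4 := logHeight_comp_le (fun a : σ × (Fin k → m) => fun t => (a.1, a.2 t))
    (cbPlu (B * M.map (eval f) * Rb.map (eval f)))
  rw [← h3] at h4
  have hf' : f ^ ((L + 1) * k) ≠ 0 := by
    obtain ⟨i, hi⟩ := Function.ne_iff.mp hf
    exact Function.ne_iff.mpr ⟨i, pow_ne_zero _ hi⟩
  rw [logHeight_fun_mul_eq hf' hB, logHeight_pow] at h4
  push_cast at h1 h4
  nlinarith

end UB

section Null

variable {K : Type*} [Field K] [CharZero K]
variable {σ n : Type*} [Finite σ] [Fintype n] [DecidableEq n] {c : ℕ}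

theorem MA_X_mem_radical (M : Matrix (Fin c) n (MvPolynomial σ K))
    (hs : ∀ f : σ → AlgebraicClosure K, f ≠ 0 → ∀ w : Fin c → AlgebraicClosure K,
      w ᵥ* M.map (aeval f) = 0 → w = 0) (s : σ) :
    (X s : MvPolynomial σ K) ∈
      (Ideal.span (Set.range fun S : Fin c → n => (M.submatrix id S).det)).radical := by
  classical
  rw [← vanishingIdeal_zeroLocus_eq_radical (K := AlgebraicClosure K), mem_vanishingIdeal_iff]
  intro x hx
  rw [aeval_X]
  by_contra hxs
  have hx0 : x ≠ 0 := fun h => hxs (by rw [h]; rfl)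
  have hinj : Function.Injective (fun w : Fin c → AlgebraicClosure K => w ᵥ* M.map (aeval x)) := by
    intro w w' hww
    have : (w - w') ᵥ* M.map (aeval x) = 0 := by
      rw [Matrix.sub_vecMul]
      exact sub_eq_zero.mpr hww
    exact sub_eq_zero.mp (hs x hx0 _ this)
  have hli : LinearIndependent (AlgebraicClosure K) (M.map (aeval x)).row :=
    (Matrix.vecMul_injective_iff (M := M.map (aeval x))).mp hinj
  refine CB_plu_ne_zero _ hli ?_
  funext S
  have h1 := hx ((M.submatrix id S).det) (Ideal.subset_span ⟨S, rfl⟩)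
  rw [CB_plu_apply]
  rw [AlgHom.map_det] at h1
  exact h1

theorem MA_exists_R (M : Matrix (Fin c) n (MvPolynomial σ K))
    (hM : ∀ i j, (M i j).IsHomogeneous 1)
    (hs : ∀ f : σ → AlgebraicClosure K, f ≠ 0 → ∀ w : Fin c → AlgebraicClosure K,
      w ᵥ* M.map (aeval f) = 0 → w = 0) :
    ∃ (L : ℕ) (R : σ → Matrix n (Fin c) (MvPolynomial σ K)),
      (∀ s i j, (R s i j).IsHomogeneous L) ∧
      ∀ s, M * R s = (X s : MvPolynomial σ K) ^ (L + 1) • (1 : Matrix (Fin c) (Fin c) _) := by
  classical
  have := Fintype.ofFinite σ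
  set I := Ideal.span (Set.range fun S : Fin c → n => (M.submatrix id S).det) with hI
  have h1 : ∀ s : σ, ∃ l : ℕ, (X s : MvPolynomial σ K) ^ l ∈ I := fun s =>
    MA_X_mem_radical M hs s
  choose l hl using h1
  set L := ∑ s, l s with hL
  have h2 : ∀ s : σ, (X s : MvPolynomial σ K) ^ (L + 1) ∈ I := fun s =>
    Ideal.pow_mem_of_pow_mem I (hl s)
      ((Finset.single_le_sum (fun i _ => Nat.zero_le (l i)) (Finset.mem_univ s)).trans
        (Nat.le_succ _))
  have h3 : ∀ s : σ, ∃ g : (Fin c → n) → MvPolynomial σ K,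
      ∑ S, g S * (M.submatrix id S).det = (X s : MvPolynomial σ K) ^ (L + 1) := fun s =>
    Ideal.mem_span_range_iff_exists_fun.mp (h2 s)
  choose g hg using h3
  set R' : σ → Matrix n (Fin c) (MvPolynomial σ K) := fun s =>
    ∑ S, g s S • ((1 : Matrix n n (MvPolynomial σ K)).submatrix id S * (M.submatrix id S).adjugate)
    with hR'
  have h4 : ∀ s, M * R' s = (X s : MvPolynomial σ K) ^ (L + 1) • (1 : Matrix (Fin c) (Fin c) _) := by
    intro s
    rw [hR']
    simp only [Matrix.mul_sum, Matrix.mul_smul]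
    have e : ∀ S : Fin c → n, M * ((1 : Matrix n n (MvPolynomial σ K)).submatrix id S *
        (M.submatrix id S).adjugate) = (M.submatrix id S).det • 1 := by
      intro S
      rw [← Matrix.mul_assoc, ← Matrix.mul_adjugate]
      congr 1
      ext i t
      simp [Matrix.mul_apply, Matrix.one_apply]
    simp only [e, smul_smul, ← Finset.sum_smul, hg]
  refine ⟨L, fun s => (R' s).map (homogeneousComponent L), fun s i j =>
    homogeneousComponent_isHomogeneous _ _, fun s => ?_⟩
  ext i j : 1
  have h5 := congrArg (fun A : Matrix (Fin c) (Fin c) (MvPolynomial σ K) =>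
    homogeneousComponent (L + 1) (A i j)) (h4 s)
  simp only [Matrix.mul_apply, map_sum] at h5
  rw [Matrix.mul_apply]
  simp only [Matrix.map_apply]
  simp only [MA_hc_mul _ _ (hM _ _)] at h5
  rw [h5]
  have h6 : ((X s : MvPolynomial σ K) ^ (L + 1) • (1 : Matrix (Fin c) (Fin c) _)) i j ∈
      homogeneousSubmodule σ K (L + 1) := by
    rw [Matrix.smul_apply, Matrix.one_apply]
    split_ifs
    · simpa using (isHomogeneous_X K s).pow (L + 1)
    · simp
  rw [homogeneousComponent_of_mem h6, if_pos rfl]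

end Null

section Main

variable {K : Type*} [Field K] [CharZero K] [AdmissibleAbsValues K]
variable {σ n : Type*} [Finite σ] [Fintype n] [DecidableEq n] {c : ℕ}

/-- abstract (M), polynomial-matrix form -/
theorem MA_abs_poly (M : Matrix (Fin c) n (MvPolynomial σ K))
    (hM : ∀ i j, (M i j).IsHomogeneous 1)
    (hs : ∀ f : σ → AlgebraicClosure K, f ≠ 0 → ∀ w : Fin c → AlgebraicClosure K,
      w ᵥ* M.map (aeval f) = 0 → w = 0) (k : ℕ) :
    ∃ C : ℝ, ∀ f : σ → K, f ≠ 0 → ∀ B : Matrix (Fin k) (Fin c) K, cbPlu B ≠ 0 →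
      |logHeight (cbPlu (B * M.map (eval f))) - logHeight (cbPlu B) - k * logHeight f| ≤ C := by
  obtain ⟨L, R, hR, hMR⟩ := MA_exists_R M hM hs
  obtain ⟨C₁, h₁⟩ := MA_upper (K := K) k 1 M hM
  obtain ⟨C₂, h₂⟩ := MA_lower (K := K) k L M R hR hMR
  refine ⟨max C₁ C₂, fun f hf B hB => ?_⟩
  have e1 := h₁ f B
  have e2 := h₂ f hf B hB
  rw [mul_one] at e1
  rw [abs_le]
  constructor
  · have := le_max_right C₁ C₂
    linarith
  · have := le_max_left C₁ C₂
    linarith

/-- the generic matrix `∑ X_i s_i` -/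
noncomputable def MAgen [Fintype σ] (s : σ → Matrix (Fin c) n K) :
    Matrix (Fin c) n (MvPolynomial σ K) :=
  Matrix.of fun i j => ∑ a, X a * C (s a i j)

omit [CharZero K] [AdmissibleAbsValues K] [Finite σ] [Fintype n] [DecidableEq n] in
theorem MAgen_map_eval [Fintype σ] (s : σ → Matrix (Fin c) n K) (f : σ → K) :
    (MAgen s).map (eval f) = ∑ a, f a • s a := by
  ext i j
  simp [MAgen, Matrix.sum_apply]

omit [CharZero K] [AdmissibleAbsValues K] [Finite σ] [Fintype n] [DecidableEq n] in
theorem MAgen_map_aeval [Fintype σ] {F : Type*} [Field F] [Algebra K F]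
    (s : σ → Matrix (Fin c) n K) (f : σ → F) :
    (MAgen s).map (aeval f) = ∑ a, f a • (s a).map (algebraMap K F) := by
  ext i j
  simp [MAgen, Matrix.sum_apply]

/-- abstract (M): `H(f W) = H(W) + k h(f) + O(1)`, for a linear family of matrices `∑ f_a s_a`
which is injective (on row vectors) for every `f ≠ 0` over the algebraic closure. -/
theorem MA_abs [Fintype σ] (s : σ → Matrix (Fin c) n K)
    (hs : ∀ f : σ → AlgebraicClosure K, f ≠ 0 → ∀ w : Fin c → AlgebraicClosure K,
      w ᵥ* (∑ a, f a • (s a).map (algebraMap K (AlgebraicClosure K))) = 0 → w = 0) (k : ℕ) :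
    ∃ C : ℝ, ∀ f : σ → K, f ≠ 0 → ∀ B : Matrix (Fin k) (Fin c) K, plu B ≠ 0 →
      |logHeight (plu (B * ∑ a, f a • s a)) - logHeight (plu B) - k * logHeight f| ≤ C := by
  obtain ⟨C, hC⟩ := MA_abs_poly (MAgen s)
    (fun i j => IsHomogeneous.sum _ _ _ fun a _ => by
      simpa using (isHomogeneous_X K a).mul (isHomogeneous_C σ (s a i j)))
    (fun f hf w hw => hs f hf w (by rwa [MAgen_map_aeval] at hw)) k
  refine ⟨C, fun f hf B hB => ?_⟩
  have := hC f hf B hB
  rw [MAgen_map_eval] at this
  exact this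

end Main

end Fermat.Agent.S17Lib
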